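import Mathlib
import Fermat.Agent.LT.T7.B981.PairDatSpec

/-!
# Row LT, tower T7, leaf T7.L2.1.H2a.A.0.D.2 `NormFrameC981` (registry 2980): SPARE, PROVED

OFF-MAIN.  Spare proof by helper961 (owner of the row: helper386).  ADDITIVE (new names only,
suffix `961`); no hole, nothing assumed.  Vocabulary: `T7/B981/PairDatSpec.lean` of helper981
(byte-identical copy) and its imports.

    normFrameC_closed961 : B981.NormFrameC981 K K'                               (VERBATIM)

## The proof

* `P` = the image of `P'` under `below961` (`w ↦ w ∩ 𝒪_K`); `PlaceOver K K' v w ↔ below961 w = v`.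
* `a₀ = Algebra.intNorm (𝓞 K) (𝓞 K') a₀'`, `α = N_{K'/K} α'` (`Units.map (Algebra.norm K)`).
* `span`: `Ideal.relNorm_singleton`, multiplicativity of `Ideal.relNorm`,
  `Ideal.relNorm_eq_pow_of_isMaximal` and `Ideal.absNorm_pow_inertiaDeg` (`resDeg981 v w` is the
  inertia degree because `N w = (N v) ^ f` and `N v ≥ 2`), then the product is regrouped along
  the fibres of `below961`.
* `cong`: `algebraMap (N a) = ∏_σ σ a` (restriction of the Galois group to the rings of
  integers), every `σ` preserves `𝔫 𝒪_{K'}`, and `𝔫 𝒪_{K'} ∩ 𝒪_K = 𝔫` (faithful flatness).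
* infinite places: `K` is totally complex, so every place of `K'` is unramified over `K` and
  the Galois group acts simply transitively on the places over `v`; an enumeration without
  repetition of length `ℓ = [K' : K]` exhausts them, and `v (N α') = ∏_σ (σ • w₀) α'`.
  The hypothesis `ℓ ≠ 2` is not used.
-/

set_option autoImplicit false
set_option linter.style.haveILetI false
set_option linter.unusedSectionVars false

open IsDedekindDomain NumberField

noncomputable section

namespace Fermat.Agent.LT.T7.H961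

open Fermat.Agent.LT.T7 Fermat.Agent.LT.T7.H893 Fermat.Agent.LT.T7.B981

variable {K K' : Type} [Field K] [NumberField K] [Field K'] [NumberField K'] [Algebra K K']

/-- The place of `K` under the place `w` of `K'`. -/
def below961 (w : HeightOneSpectrum (𝓞 K')) : HeightOneSpectrum (𝓞 K) where
  asIdeal := w.asIdeal.comap (algebraMap (𝓞 K) (𝓞 K'))
  isPrime := Ideal.comap_isPrime _ _
  ne_bot := by
    intro h
    exact w.ne_bot (Ideal.eq_bot_of_comap_eq_bot h)

theorem below961_asIdeal (w : HeightOneSpectrum (𝓞 K')) :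
    (below961 (K := K) w).asIdeal = w.asIdeal.comap (algebraMap (𝓞 K) (𝓞 K')) := rfl

instance liesOver961 (w : HeightOneSpectrum (𝓞 K')) :
    w.asIdeal.LiesOver (below961 (K := K) w).asIdeal := ⟨rfl⟩

theorem coe_algebraMap961 (x : 𝓞 K) :
    ((algebraMap (𝓞 K) (𝓞 K') x : 𝓞 K') : K') = algebraMap K K' (x : K) := rfl

theorem placeOver_iff961 (v : HeightOneSpectrum (𝓞 K)) (w : HeightOneSpectrum (𝓞 K')) :
    PlaceOver K K' v w ↔ below961 (K := K) w = v := by
  constructor
  · intro h
    apply HeightOneSpectrum.ext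
    ext x
    rw [below961_asIdeal, Ideal.mem_comap]
    exact (h x (algebraMap (𝓞 K) (𝓞 K') x) (coe_algebraMap961 x)).symm
  · rintro rfl x y hxy
    have hy : y = algebraMap (𝓞 K) (𝓞 K') x := by
      apply RingOfIntegers.ext
      rw [hxy, coe_algebraMap961]
    rw [hy, below961_asIdeal, Ideal.mem_comap]

theorem one_lt_absNorm961 {F : Type} [Field F] [NumberField F] (v : HeightOneSpectrum (𝓞 F)) :
    1 < Ideal.absNorm v.asIdeal := by
  have h0 : Ideal.absNorm v.asIdeal ≠ 0 := by
    rw [Ne, Ideal.absNorm_eq_zero_iff]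
    exact v.ne_bot
  have h1 : Ideal.absNorm v.asIdeal ≠ 1 := by
    rw [Ne, Ideal.absNorm_eq_one_iff]
    exact v.isPrime.ne_top
  omega

theorem resDeg_below961 (w : HeightOneSpectrum (𝓞 K')) :
    resDeg981 (below961 (K := K) w) w = w.asIdeal.inertiaDeg (𝓞 K) := by
  change Nat.log (Ideal.absNorm (below961 (K := K) w).asIdeal) (Ideal.absNorm w.asIdeal) = _
  rw [← Ideal.absNorm_pow_inertiaDeg (below961 (K := K) w).asIdeal w.asIdeal]
  exact Nat.log_pow (one_lt_absNorm961 _) _

theorem resDeg_below_pos961 (w : HeightOneSpectrum (𝓞 K')) :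
    0 < resDeg981 (below961 (K := K) w) w := by
  rw [resDeg_below961]
  exact Ideal.inertiaDeg_pos _ _

theorem relNorm_place961 (w : HeightOneSpectrum (𝓞 K')) :
    Ideal.relNorm (𝓞 K) w.asIdeal
      = (below961 (K := K) w).asIdeal ^ resDeg981 (below961 (K := K) w) w := by
  haveI : w.asIdeal.IsMaximal := w.isMaximal
  haveI : (below961 (K := K) w).asIdeal.IsMaximal := (below961 (K := K) w).isMaximal
  rw [resDeg_below961]
  exact Ideal.relNorm_eq_pow_of_isMaximal w.asIdeal (below961 (K := K) w).asIdeal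

/-! ## The norm of the generator -/

theorem span_norm961 (P' : Finset (HeightOneSpectrum (𝓞 K')))
    (e' : HeightOneSpectrum (𝓞 K') → ℕ) (a₀' : 𝓞 K')
    (h : Ideal.span {a₀'} = ∏ w ∈ P', w.asIdeal ^ e' w) :
    Ideal.span {Algebra.intNorm (𝓞 K) (𝓞 K') a₀'}
      = ∏ w ∈ P', (below961 (K := K) w).asIdeal ^
          (resDeg981 (below961 (K := K) w) w * e' w) := by
  rw [← Ideal.relNorm_singleton, h, map_prod]
  refine Finset.prod_congr rfl fun w _ => ?_
  rw [map_pow, relNorm_place961, ← pow_mul]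

open Classical in
theorem prod_fibre961 (P' : Finset (HeightOneSpectrum (𝓞 K')))
    (e' : HeightOneSpectrum (𝓞 K') → ℕ) :
    ∏ v ∈ P'.image (below961 (K := K)),
        v.asIdeal ^ (∑ w ∈ fib981 (K := K) P' v, resDeg981 v w * e' w)
      = ∏ w ∈ P', (below961 (K := K) w).asIdeal ^
          (resDeg981 (below961 (K := K) w) w * e' w) := by
  rw [← Finset.prod_fiberwise_of_maps_to (g := below961 (K := K))
    (t := P'.image (below961 (K := K))) (fun w hw => Finset.mem_image_of_mem _ hw)]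
  refine Finset.prod_congr rfl fun v _ => ?_
  rw [← Finset.prod_pow_eq_pow_sum]
  have hf : fib981 (K := K) P' v = P'.filter (fun w => below961 (K := K) w = v) :=
    Finset.filter_congr fun w _ => placeOver_iff961 v w
  rw [hf]
  refine Finset.prod_congr rfl fun w hw => ?_
  rw [(Finset.mem_filter.mp hw).2]

/-! ## The congruence -/

theorem algebraMap_intNorm_eq_prod961 [IsGalois K K'] (a : 𝓞 K') :
    algebraMap (𝓞 K) (𝓞 K') (Algebra.intNorm (𝓞 K) (𝓞 K') a)
      = ∏ σ : Gal(K'/K), galRestrict (𝓞 K) K K' (𝓞 K') σ a := by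
  apply IsIntegralClosure.algebraMap_injective (𝓞 K') (𝓞 K) K'
  rw [← IsScalarTower.algebraMap_apply, IsScalarTower.algebraMap_apply (𝓞 K) K K',
    Algebra.algebraMap_intNorm (L := K'), Algebra.norm_eq_prod_automorphisms]
  simp only [map_prod, algebraMap_galRestrict_apply]

theorem algEquiv_mem_upI961 (𝔫 : Ideal (𝓞 K)) (τ : 𝓞 K' ≃ₐ[𝓞 K] 𝓞 K') {x : 𝓞 K'}
    (hx : x ∈ upI (K' := K') 𝔫) : τ x ∈ upI (K' := K') 𝔫 := by
  have h1 : τ x ∈ Ideal.map (τ : 𝓞 K' →+* 𝓞 K') (upI (K' := K') 𝔫) :=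
    Ideal.mem_map_of_mem _ hx
  have h2 : Ideal.map (τ : 𝓞 K' →+* 𝓞 K') (upI (K' := K') 𝔫) = upI (K' := K') 𝔫 := by
    change Ideal.map (τ : 𝓞 K' →+* 𝓞 K') (Ideal.map (algebraMap (𝓞 K) (𝓞 K')) 𝔫)
      = Ideal.map (algebraMap (𝓞 K) (𝓞 K')) 𝔫
    rw [Ideal.map_map]
    congr 1
    exact τ.toAlgHom.comp_algebraMap
  rwa [h2] at h1

theorem norm_sub_one_mem961 [IsGalois K K'] (𝔫 : Ideal (𝓞 K)) (a : 𝓞 K')
    (ha : a - 1 ∈ upI (K' := K') 𝔫) :
    Algebra.intNorm (𝓞 K) (𝓞 K') a - 1 ∈ 𝔫 := by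
  rw [← Ideal.comap_map_eq_self_of_faithfullyFlat (B := 𝓞 K') 𝔫, Ideal.mem_comap, map_sub,
    map_one, algebraMap_intNorm_eq_prod961]
  change _ ∈ upI (K' := K') 𝔫
  have hq : Ideal.Quotient.mk (upI (K' := K') 𝔫)
      (∏ σ : Gal(K'/K), galRestrict (𝓞 K) K K' (𝓞 K') σ a) = 1 := by
    rw [map_prod]
    refine Finset.prod_eq_one fun σ _ => ?_
    rw [← map_one (Ideal.Quotient.mk (upI (K' := K') 𝔫)), Ideal.Quotient.eq]
    have := algEquiv_mem_upI961 𝔫 (galRestrict (𝓞 K) K K' (𝓞 K') σ) ha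
    rwa [map_sub, map_one] at this
  rw [← map_one (Ideal.Quotient.mk (upI (K' := K') 𝔫)), Ideal.Quotient.eq] at hq
  exact hq

/-! ## The infinite places -/

theorem log_norm961 [IsGalois K K'] (ℓ : ℕ) (hdeg : Module.finrank K K' = ℓ) (hK : TotCplx K)
    (α' : K'ˣ) (v : InfinitePlace K) (wen : ℕ → InfinitePlace K') (hw : IsEnum981 ℓ v wen) :
    Real.log (v (Algebra.norm K (α' : K')))
      = ∑ j ∈ Finset.range ℓ, Real.log ((wen j) (α' : K')) := by
  classical
  obtain ⟨hov, hinj⟩ := hw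
  have hw₀v : (wen 0).comap (algebraMap K K') = v := hov 0
  have hunr : InfinitePlace.IsUnramified K (wen 0) := by
    rw [InfinitePlace.isUnramified_iff]
    right
    rw [hw₀v]
    exact hK v
  have hstab : Nat.card (MulAction.stabilizer Gal(K'/K) (wen 0)) = 1 := by
    rw [InfinitePlace.card_stabilizer, if_pos hunr]
  have hbot : MulAction.stabilizer Gal(K'/K) (wen 0) = ⊥ :=
    Subgroup.card_eq_one.mp hstab
  have hφ : Function.Injective (fun σ : Gal(K'/K) => σ • wen 0) := by
    intro σ τ h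
    have hmem : τ⁻¹ * σ ∈ MulAction.stabilizer Gal(K'/K) (wen 0) := by
      rw [MulAction.mem_stabilizer_iff, mul_smul]
      have h' : σ • wen 0 = τ • wen 0 := h
      rw [h', inv_smul_smul]
    rw [hbot, Subgroup.mem_bot] at hmem
    exact (inv_mul_eq_one.mp hmem).symm
  have hprod : v (Algebra.norm K (α' : K')) = ∏ σ : Gal(K'/K), (σ • wen 0) (α' : K') := by
    rw [← hw₀v, InfinitePlace.comap_apply, Algebra.norm_eq_prod_automorphisms, map_prod]
    refine Fintype.prod_equiv (Equiv.inv _) _ _ fun σ => ?_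
    rw [Equiv.inv_apply, InfinitePlace.smul_apply]
    rfl
  have hinjOn : Set.InjOn wen (Finset.range ℓ : Set ℕ) := by
    intro j hj j' hj' h
    exact hinj j j' (Finset.mem_range.mp hj) (Finset.mem_range.mp hj') h
  have himg : (Finset.range ℓ).image wen
      = Finset.univ.image (fun σ : Gal(K'/K) => σ • wen 0) := by
    apply Finset.eq_of_subset_of_card_le
    · intro w hw
      obtain ⟨j, _, rfl⟩ := Finset.mem_image.mp hw
      obtain ⟨σ, hσ⟩ := InfinitePlace.exists_smul_eq_of_comap_eq (k := K) (w := wen 0)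
        (w' := wen j) (by rw [hw₀v, hov j])
      exact Finset.mem_image.mpr ⟨σ, Finset.mem_univ _, hσ⟩
    · rw [Finset.card_image_of_injective _ hφ, Finset.card_image_of_injOn hinjOn,
        Finset.card_range, Finset.card_univ, ← Nat.card_eq_fintype_card,
        IsGalois.card_aut_eq_finrank, hdeg]
  have hne : ∀ j ∈ Finset.range ℓ, (wen j) (α' : K') ≠ 0 := by
    intro j _
    exact (map_ne_zero (wen j)).mpr α'.ne_zero
  rw [hprod, ← Finset.prod_image (s := Finset.univ) (g := fun σ : Gal(K'/K) => σ • wen 0)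
    (f := fun w : InfinitePlace K' => w (α' : K')) (fun σ _ τ _ h => hφ h), ← himg,
    Finset.prod_image hinjOn, Real.log_prod hne]

/-! ## The leaf -/

open Classical in
/-- **LEAF T7.L2.1.H2a.A.0.D.2 `NormFrameC981`, VERBATIM.** -/
theorem normFrameC_closed961 : NormFrameC981 K K' := by
  intro ℓ hcyc _ hK 𝔫 P' e' a₀' α' h𝔫 hF
  haveI : IsGalois K K' := hcyc.galois
  refine ⟨P'.image (below961 (K := K)),
    fun v => ∑ w ∈ fib981 (K := K) P' v, resDeg981 v w * e' w,
    Algebra.intNorm (𝓞 K) (𝓞 K') a₀',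
    Units.map (Algebra.norm K : K' →* K) α', ?_, ?_, ?_, ?_⟩
  · refine ⟨h𝔫, hF.nonempty.image _, ?_, ?_, ?_, ?_, ?_⟩
    · -- prime
      intro v hv hdvd
      obtain ⟨w, hw, rfl⟩ := Finset.mem_image.mp hv
      refine hF.prime w hw ?_
      rw [Ideal.dvd_iff_le] at hdvd ⊢
      change Ideal.map (algebraMap (𝓞 K) (𝓞 K')) 𝔫 ≤ w.asIdeal
      rw [Ideal.map_le_iff_le_comap]
      exact hdvd
    · -- pos
      intro v hv
      obtain ⟨w, hw, rfl⟩ := Finset.mem_image.mp hv
      have hwf : w ∈ fib981 (K := K) P' (below961 (K := K) w) :=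
        Finset.mem_filter.mpr ⟨hw, (placeOver_iff961 _ w).mpr rfl⟩
      exact lt_of_lt_of_le (Nat.mul_pos (resDeg_below_pos961 w) (hF.pos w hw))
        (Finset.single_le_sum (f := fun w' => resDeg981 (below961 (K := K) w) w' * e' w')
          (fun _ _ => Nat.zero_le _) hwf)
    · -- span
      rw [span_norm961 P' e' a₀' hF.span, prod_fibre961]
    · -- cong
      exact norm_sub_one_mem961 𝔫 a₀' hF.cong
    · -- coe
      rw [Units.coe_map, Algebra.algebraMap_intNorm (L := K'), ← hF.coe]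
  · intro v
    rw [Finset.mem_image]
    constructor
    · rintro ⟨w, hw, rfl⟩
      exact ⟨w, hw, (placeOver_iff961 _ w).mpr rfl⟩
    · rintro ⟨w, hw, hvw⟩
      exact ⟨w, hw, (placeOver_iff961 v w).mp hvw⟩
  · intro v _
    rfl
  · intro v wen hwen
    rw [Units.coe_map]
    exact log_norm961 ℓ hcyc.degree hK α' v wen hwen

end Fermat.Agent.LT.T7.H961

end
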