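import Mathlib
import Fermat.Agent.LT.T7.H961.NormFrame
import Fermat.Agent.LT.T7.DQ773.DatQSpec

/-!
# Row LT, tower T7, leaf T7.L2Q.1.H2a.A.0.D `DQ773.NormFrameQC773` (cut of helper773): SPARE, PROVED

OFF-MAIN.  Spare proof by helper961.  ADDITIVE (new names only, suffix `961`); no hole, nothing
assumed.  Vocabulary: `T7/DQ773/DatQSpec.lean` of helper773 (byte-identical copy).

    normFrameQC_closed961 (F) : DQ773.NormFrameQC773 F                           (VERBATIM)

The frame is the one of `normFrameC_closed961` for `K = ℚ`, `K' = F` (`F/ℚ` is Galois: degree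
`2`).  New: `N α' > 0` (`N x = φ(x) conj φ(x)` for the two complex embeddings) and
`log |N α'| = 2 log w(α')` (product formula at infinity, one complex place).
-/

set_option autoImplicit false
set_option linter.style.haveILetI false
set_option linter.unusedSectionVars false

open IsDedekindDomain NumberField

noncomputable section

namespace Fermat.Agent.LT.T7.H961

open Fermat.Agent.LT.T7 Fermat.Agent.LT.T7.H893 Fermat.Agent.LT.T7.B981

variable {F : Type} [Field F] [NumberField F]

theorem subsingleton_place961 (hIQ : IsImagQuad F) : Subsingleton (InfinitePlace F) := by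
  have h := hIQ.1
  rw [Nat.card_eq_fintype_card] at h
  exact Fintype.card_le_one_iff_subsingleton.mp h.le

theorem finrank_imagQuad961 (hIQ : IsImagQuad F) : Module.finrank ℚ F = 2 := by
  classical
  haveI : IsTotallyComplex F := ⟨hIQ.2⟩
  have h1 := hIQ.1
  rw [Nat.card_eq_fintype_card, InfinitePlace.card_eq_nrRealPlaces_add_nrComplexPlaces,
    IsTotallyComplex.nrRealPlaces_eq_zero, zero_add] at h1
  rw [IsTotallyComplex.finrank, h1]

theorem isGalois_imagQuad961 (hIQ : IsImagQuad F) : IsGalois ℚ F := by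
  haveI : Algebra.IsQuadraticExtension ℚ F := { finrank_eq_two' := finrank_imagQuad961 hIQ }
  infer_instance

theorem norm_pos961 (hIQ : IsImagQuad F) {x : F} (hx : x ≠ 0) : 0 < Algebra.norm ℚ x := by
  classical
  haveI : IsTotallyComplex F := ⟨hIQ.2⟩
  obtain ⟨w⟩ : Nonempty (InfinitePlace F) := inferInstance
  set φ : F →+* ℂ := w.embedding with hφ
  have hne : ComplexEmbedding.conjugate φ ≠ φ := fun h =>
    IsTotallyComplex.complexEmbedding_not_isReal φ (ComplexEmbedding.isReal_iff.mpr h)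
  have hcard : Fintype.card (F →+* ℂ) = 2 := by
    rw [Embeddings.card, finrank_imagQuad961 hIQ]
  have huniv : (Finset.univ : Finset (F →+* ℂ)) = {φ, ComplexEmbedding.conjugate φ} := by
    symm
    apply Finset.eq_univ_of_card
    rw [Finset.card_pair hne.symm, hcard]
  have hprod : (algebraMap ℚ ℂ) (Algebra.norm ℚ x) = φ x * ComplexEmbedding.conjugate φ x := by
    rw [Algebra.norm_eq_prod_embeddings ℚ ℂ x,
      ← Fintype.prod_equiv (RingHom.equivRatAlgHom F ℂ) (fun f => f x) (fun ψ => ψ x)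
        (fun _ => by simp [RingHom.equivRatAlgHom_apply]),
      huniv, Finset.prod_pair hne.symm]
  have hsq : ((Algebra.norm ℚ x : ℚ) : ℂ) = ((Complex.normSq (φ x) : ℝ) : ℂ) := by
    rw [← eq_ratCast (algebraMap ℚ ℂ), hprod, ComplexEmbedding.conjugate_coe_eq,
      Complex.mul_conj]
  have hre : ((Algebra.norm ℚ x : ℚ) : ℝ) = Complex.normSq (φ x) := by
    have := congrArg Complex.re hsq
    simpa using this
  have hpos : 0 < Complex.normSq (φ x) :=
    Complex.normSq_pos.mpr ((map_ne_zero φ).mpr hx)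
  rw [← hre] at hpos
  exact_mod_cast hpos

theorem log_normQ961 (hIQ : IsImagQuad F) (α' : Fˣ) (v : InfinitePlace ℚ)
    (w : InfinitePlace F) :
    Real.log (v (Algebra.norm ℚ (α' : F))) = 2 * Real.log (w (α' : F)) := by
  classical
  haveI : IsTotallyComplex F := ⟨hIQ.2⟩
  haveI := subsingleton_place961 hIQ
  have h1 : v (Algebra.norm ℚ (α' : F)) = ((|Algebra.norm ℚ (α' : F)| : ℚ) : ℝ) := by
    rw [Subsingleton.elim v Rat.infinitePlace, Rat.infinitePlace_apply]
  have h2 := InfinitePlace.prod_eq_abs_norm (K := F) (α' : F)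
  have huniv : (Finset.univ : Finset (InfinitePlace F)) = {w} := by
    ext w'
    simp [Subsingleton.elim w' w]
  rw [huniv, Finset.prod_singleton, IsTotallyComplex.mult_eq] at h2
  rw [h1, ← h2, Real.log_pow]
  norm_num

open Classical in
/-- **LEAF `DQ773.NormFrameQC773`, VERBATIM.** -/
theorem normFrameQC_closed961 (F : Type) [Field F] [NumberField F] :
    DQ773.NormFrameQC773 F := by
  intro hIQ 𝔫 P' e' a₀' α' h𝔫 hF
  haveI : IsGalois ℚ F := isGalois_imagQuad961 hIQ
  refine ⟨P'.image (below961 (K := ℚ)),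
    fun v => ∑ w ∈ fib981 (K := ℚ) P' v, resDeg981 v w * e' w,
    Algebra.intNorm (𝓞 ℚ) (𝓞 F) a₀',
    Units.map (Algebra.norm ℚ : F →* ℚ) α', ?_, ?_, ?_, ?_, ?_⟩
  · refine ⟨h𝔫, hF.nonempty.image _, ?_, ?_, ?_, ?_, ?_⟩
    · intro v hv hdvd
      obtain ⟨w, hw, rfl⟩ := Finset.mem_image.mp hv
      refine hF.prime w hw ?_
      rw [Ideal.dvd_iff_le] at hdvd ⊢
      change Ideal.map (algebraMap (𝓞 ℚ) (𝓞 F)) 𝔫 ≤ w.asIdeal
      rw [Ideal.map_le_iff_le_comap]
      exact hdvd
    · intro v hv
      obtain ⟨w, hw, rfl⟩ := Finset.mem_image.mp hv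
      have hwf : w ∈ fib981 (K := ℚ) P' (below961 (K := ℚ) w) :=
        Finset.mem_filter.mpr ⟨hw, (placeOver_iff961 _ w).mpr rfl⟩
      exact lt_of_lt_of_le (Nat.mul_pos (resDeg_below_pos961 w) (hF.pos w hw))
        (Finset.single_le_sum (f := fun w' => resDeg981 (below961 (K := ℚ) w) w' * e' w')
          (fun _ _ => Nat.zero_le _) hwf)
    · rw [span_norm961 P' e' a₀' hF.span, prod_fibre961]
    · exact norm_sub_one_mem961 𝔫 a₀' hF.cong
    · rw [Units.coe_map, Algebra.algebraMap_intNorm (L := F), ← hF.coe]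
  · intro v
    change 0 < InfinitePlace.embedding_of_isReal (BQ87.ratReal87 v)
      ((Units.map (Algebra.norm ℚ : F →* ℚ) α' : ℚˣ) : ℚ)
    rw [eq_ratCast, Units.coe_map]
    exact_mod_cast norm_pos961 hIQ α'.ne_zero
  · intro v
    rw [Finset.mem_image]
    constructor
    · rintro ⟨w, hw, rfl⟩
      exact ⟨w, hw, (placeOver_iff961 _ w).mpr rfl⟩
    · rintro ⟨w, hw, hvw⟩
      exact ⟨w, hw, (placeOver_iff961 v w).mp hvw⟩
  · intro v _
    rfl
  · intro v w
    rw [Units.coe_map]
    exact log_normQ961 hIQ α' v w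

end Fermat.Agent.LT.T7.H961

end
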